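/-
Evaluation of multivariate power series at nilpotent elements (Mathlib only).
-/
import Mathlib

set_option autoImplicit false
set_option linter.unusedSectionVars false

namespace Fermat.Agent.Lib.Helper4

open MvPowerSeries IsLocalRing

noncomputable section

section Defs

variable {σ : Type} [Fintype σ] {𝒪 : Type} [CommRing 𝒪] {A : Type} [CommRing A] [Algebra 𝒪 A]

/-- The truncation order used to evaluate at the family `a`. -/
def evalOrder (a : σ → A) : ℕ := (∑ c, nilpotencyClass (a c)) + 1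

/-- `aeval a` kills `idealOfVars ^ n` as soon as all monomials of degree `≥ n` in `a` vanish. -/
theorem aeval_eq_zero_of_mem_pow (a : σ → A) (n : ℕ)
    (hn : ∀ x : σ →₀ ℕ, n ≤ Finsupp.degree x → (x.prod fun i k => a i ^ k) = 0)
    (p : MvPolynomial σ 𝒪) (hp : p ∈ MvPolynomial.idealOfVars σ 𝒪 ^ n) :
    MvPolynomial.aeval a p = 0 := by
  rw [MvPolynomial.mem_pow_idealOfVars_iff] at hp
  rw [p.as_sum, map_sum]
  refine Finset.sum_eq_zero fun x hx => ?_
  rw [MvPolynomial.aeval_monomial, hn x (hp x hx), mul_zero]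

theorem prod_eq_zero_of_evalOrder_le (a : σ → A) (ha : ∀ c, IsNilpotent (a c)) (x : σ →₀ ℕ)
    (hx : evalOrder a ≤ Finsupp.degree x) : (x.prod fun i k => a i ^ k) = 0 := by
  classical
  have hex : ∃ c, nilpotencyClass (a c) < x c := by
    by_contra hcon
    push Not at hcon
    have h1 : Finsupp.degree x ≤ ∑ c, nilpotencyClass (a c) := by
      rw [Finsupp.degree_eq_sum]
      exact Finset.sum_le_sum fun c _ => hcon c
    unfold evalOrder at hx
    omega
  obtain ⟨c, hc⟩ := hex
  have hc0 : x c ≠ 0 := by omega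
  have hmem : c ∈ x.support := Finsupp.mem_support_iff.mpr hc0
  rw [Finsupp.prod]
  refine Finset.prod_eq_zero hmem ?_
  have h2 : a c ^ x c = a c ^ nilpotencyClass (a c) * a c ^ (x c - nilpotencyClass (a c)) := by
    rw [← pow_add]
    congr 1
    omega
  rw [h2, pow_nilpotencyClass (ha c), zero_mul]

/-- Evaluation of a power series at a family of nilpotent elements. -/
def evalNilp (a : σ → A) (ha : ∀ c, IsNilpotent (a c)) : MvPowerSeries σ 𝒪 →ₐ[𝒪] A :=
  (Ideal.Quotient.liftₐ (MvPolynomial.idealOfVars σ 𝒪 ^ evalOrder a) (MvPolynomial.aeval a)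
    (aeval_eq_zero_of_mem_pow a (evalOrder a) (prod_eq_zero_of_evalOrder_le a ha))).comp
    ((truncTotalAlgHom σ 𝒪 (evalOrder a)).restrictScalars 𝒪)

theorem evalNilp_apply (a : σ → A) (ha : ∀ c, IsNilpotent (a c)) (f : MvPowerSeries σ 𝒪) :
    evalNilp a ha f = MvPolynomial.aeval a (truncTotal (evalOrder a) f) := rfl

/-- Independence of the truncation order. -/
theorem evalNilp_eq (a : σ → A) (ha : ∀ c, IsNilpotent (a c)) (n : ℕ)
    (hn : ∀ x : σ →₀ ℕ, n ≤ Finsupp.degree x → (x.prod fun i k => a i ^ k) = 0)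
    (f : MvPowerSeries σ 𝒪) :
    evalNilp a ha f = MvPolynomial.aeval a (truncTotal n f) := by
  rw [evalNilp_apply, ← sub_eq_zero, ← map_sub]
  have hmem := truncTotal_sub_truncTotal_mem_pow_idealOfVars (σ := σ) (R := 𝒪)
    (l := min (evalOrder a) n) (m := evalOrder a) (n := n) (min_le_left _ _) (min_le_right _ _) f
  refine aeval_eq_zero_of_mem_pow a _ (fun x hx => ?_) _ hmem
  rcases le_total (evalOrder a) n with h | h
  · rw [min_eq_left h] at hx
    exact prod_eq_zero_of_evalOrder_le a ha x hx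
  · rw [min_eq_right h] at hx
    exact hn x hx

theorem evalNilp_coe (a : σ → A) (ha : ∀ c, IsNilpotent (a c)) (p : MvPolynomial σ 𝒪) :
    evalNilp a ha (p : MvPowerSeries σ 𝒪) = MvPolynomial.aeval a p := by
  rw [evalNilp_apply, ← sub_eq_zero, ← map_sub]
  refine aeval_eq_zero_of_mem_pow a _ (prod_eq_zero_of_evalOrder_le a ha) _ ?_
  rw [MvPolynomial.mem_pow_idealOfVars_iff']
  intro x hx
  rw [MvPolynomial.coeff_sub, coeff_truncTotal _ hx, MvPolynomial.coeff_coe, sub_self]

theorem evalNilp_X (a : σ → A) (ha : ∀ c, IsNilpotent (a c)) (c : σ) :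
    evalNilp a ha (MvPowerSeries.X c : MvPowerSeries σ 𝒪) = a c := by
  have := evalNilp_coe (𝒪 := 𝒪) a ha (MvPolynomial.X c)
  rw [MvPolynomial.coe_X, MvPolynomial.aeval_X] at this
  exact this

variable {B : Type} [CommRing B] [Algebra 𝒪 B]

/-- Naturality of the evaluation. -/
theorem evalNilp_comp (a : σ → A) (ha : ∀ c, IsNilpotent (a c)) (φ : A →ₐ[𝒪] B)
    (f : MvPowerSeries σ 𝒪) :
    φ (evalNilp a ha f) = evalNilp (φ ∘ a) (fun c => (ha c).map φ) f := by
  have hn : ∀ x : σ →₀ ℕ, evalOrder a ≤ Finsupp.degree x →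
      (x.prod fun i k => (φ ∘ a) i ^ k) = 0 := by
    intro x hx
    have := congrArg φ (prod_eq_zero_of_evalOrder_le a ha x hx)
    rw [map_zero, Finsupp.prod, map_prod] at this
    rw [Finsupp.prod]
    simpa using this
  rw [evalNilp_eq (φ ∘ a) _ (evalOrder a) hn, evalNilp_apply, ← AlgHom.comp_apply,
    MvPolynomial.comp_aeval]
  rfl

end Defs

section Local

variable {σ : Type} [Fintype σ] {𝒪 : Type} [CommRing 𝒪] [IsLocalRing 𝒪]
  {A : Type} [CommRing A] [Algebra 𝒪 A]

/-- `aeval a p` is congruent to its constant coefficient modulo the ideal generated by `a`. -/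
theorem aeval_sub_constantCoeff_mem (a : σ → A) (p : MvPolynomial σ 𝒪) :
    MvPolynomial.aeval a p - algebraMap 𝒪 A (MvPolynomial.constantCoeff p) ∈
      Ideal.span (Set.range a) := by
  induction p using MvPolynomial.induction_on with
  | C r => simp
  | add p q hp hq =>
    have : MvPolynomial.aeval a (p + q) - algebraMap 𝒪 A (MvPolynomial.constantCoeff (p + q)) =
        (MvPolynomial.aeval a p - algebraMap 𝒪 A (MvPolynomial.constantCoeff p)) +
        (MvPolynomial.aeval a q - algebraMap 𝒪 A (MvPolynomial.constantCoeff q)) := by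
      simp only [map_add]; ring
    rw [this]
    exact Ideal.add_mem _ hp hq
  | mul_X p c _ =>
    have : MvPolynomial.aeval a (p * MvPolynomial.X c) -
        algebraMap 𝒪 A (MvPolynomial.constantCoeff (p * MvPolynomial.X c)) =
        MvPolynomial.aeval a p * a c := by
      simp
    rw [this]
    exact Ideal.mul_mem_left _ _ (Ideal.subset_span ⟨c, rfl⟩)

theorem mem_maximalIdeal_iff_constantCoeff (f : MvPowerSeries σ 𝒪) :
    f ∈ maximalIdeal (MvPowerSeries σ 𝒪) ↔ constantCoeff f ∈ maximalIdeal 𝒪 := by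
  rw [mem_maximalIdeal, mem_maximalIdeal, mem_nonunits_iff, mem_nonunits_iff,
    MvPowerSeries.isUnit_iff_constantCoeff]

/-- The evaluation maps the maximal ideal into any ideal containing the `a c` and the image
of the maximal ideal of `𝒪`. -/
theorem evalNilp_mem (a : σ → A) (ha : ∀ c, IsNilpotent (a c)) (N : Ideal A)
    (ha' : ∀ c, a c ∈ N) (hO : ∀ x ∈ maximalIdeal 𝒪, algebraMap 𝒪 A x ∈ N)
    (f : MvPowerSeries σ 𝒪) (hf : f ∈ maximalIdeal (MvPowerSeries σ 𝒪)) :
    evalNilp a ha f ∈ N := by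
  rw [mem_maximalIdeal_iff_constantCoeff] at hf
  rw [evalNilp_apply]
  have h1 := aeval_sub_constantCoeff_mem a (truncTotal (evalOrder a) f)
  have h2 : MvPolynomial.constantCoeff (truncTotal (evalOrder a) f) = constantCoeff f := by
    rw [MvPolynomial.constantCoeff_eq, coeff_truncTotal]
    · rfl
    · rw [map_zero]; unfold evalOrder; omega
  rw [h2] at h1
  have h3 : Ideal.span (Set.range a) ≤ N := Ideal.span_le.mpr (by rintro _ ⟨c, rfl⟩; exact ha' c)
  have := Ideal.add_mem _ (h3 h1) (hO _ hf)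
  simpa using this

theorem pow_maximalIdeal_le_ker_evalNilp (a : σ → A) (ha : ∀ c, IsNilpotent (a c)) (N : Ideal A)
    (ha' : ∀ c, a c ∈ N) (hO : ∀ x ∈ maximalIdeal 𝒪, algebraMap 𝒪 A x ∈ N) (n : ℕ)
    (hN : N ^ n = ⊥) :
    maximalIdeal (MvPowerSeries σ 𝒪) ^ n ≤ RingHom.ker (evalNilp (𝒪 := 𝒪) a ha) := by
  have h1 : (maximalIdeal (MvPowerSeries σ 𝒪)).map (evalNilp (𝒪 := 𝒪) a ha) ≤ N := by
    rw [Ideal.map_le_iff_le_comap]
    intro f hf
    exact evalNilp_mem a ha N ha' hO f hf
  intro f hf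
  rw [RingHom.mem_ker]
  have h2 : (evalNilp (𝒪 := 𝒪) a ha) f ∈
      ((maximalIdeal (MvPowerSeries σ 𝒪)) ^ n).map (evalNilp (𝒪 := 𝒪) a ha) :=
    Ideal.mem_map_of_mem _ hf
  rw [Ideal.map_pow] at h2
  have h3 := Ideal.pow_right_mono h1 n h2
  rw [hN] at h3
  exact h3

/-- Surjectivity criterion: if `𝔪_A` is nilpotent and generated by `𝔪_𝒪` and the `a c`, and the
residue field of `A` is generated by `𝒪`, then the evaluation at `a` is surjective. -/
theorem evalNilp_surjective [IsLocalRing A] (a : σ → A) (ha : ∀ c, IsNilpotent (a c))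
    (hres : Function.Surjective (residue A ∘ algebraMap 𝒪 A))
    (hnil : ∃ n, maximalIdeal A ^ n = ⊥)
    (hgen : maximalIdeal A =
      Ideal.map (algebraMap 𝒪 A) (maximalIdeal 𝒪) ⊔ Ideal.span (Set.range a)) :
    Function.Surjective (evalNilp (𝒪 := 𝒪) a ha) := by
  set B : Subalgebra 𝒪 A := (evalNilp (𝒪 := 𝒪) a ha).range with hB
  have hspan : maximalIdeal A =
      Ideal.span ((algebraMap 𝒪 A) '' (maximalIdeal 𝒪 : Set 𝒪) ∪ Set.range a) := by
    rw [hgen, Ideal.span_union]
    rfl
  have hgenB : ∀ g ∈ (algebraMap 𝒪 A) '' (maximalIdeal 𝒪 : Set 𝒪) ∪ Set.range a, g ∈ B := by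
    rintro g (⟨x, -, rfl⟩ | ⟨c, rfl⟩)
    · exact B.algebraMap_mem x
    · exact ⟨MvPowerSeries.X c, evalNilp_X a ha c⟩
  have key : ∀ j : ℕ, ∀ y : A, ∃ b ∈ B, y - b ∈ maximalIdeal A ^ j := by
    intro j
    induction j with
    | zero =>
      intro y
      refine ⟨0, B.zero_mem, ?_⟩
      rw [pow_zero, Ideal.one_eq_top]
      trivial
    | succ j ih =>
      have step : ∀ z ∈ maximalIdeal A, ∀ y : A,
          ∃ b ∈ B, z * y - b ∈ maximalIdeal A ^ (j + 1) := by
        intro z hz
        rw [hspan] at hz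
        induction hz using Submodule.span_induction with
        | mem g hg =>
          intro y
          obtain ⟨b, hb, hyb⟩ := ih y
          refine ⟨g * b, B.mul_mem (hgenB g hg) hb, ?_⟩
          have hgm : g ∈ maximalIdeal A := by
            rw [hspan]; exact Ideal.subset_span hg
          have : g * y - g * b = g * (y - b) := by ring
          rw [this, pow_succ']
          exact Ideal.mul_mem_mul hgm hyb
        | zero =>
          intro y
          exact ⟨0, B.zero_mem, by simp⟩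
        | add z₁ z₂ _ _ h₁ h₂ =>
          intro y
          obtain ⟨b₁, hb₁, h₁'⟩ := h₁ y
          obtain ⟨b₂, hb₂, h₂'⟩ := h₂ y
          refine ⟨b₁ + b₂, B.add_mem hb₁ hb₂, ?_⟩
          have : (z₁ + z₂) * y - (b₁ + b₂) = (z₁ * y - b₁) + (z₂ * y - b₂) := by ring
          rw [this]
          exact Ideal.add_mem _ h₁' h₂'
        | smul r z _ h =>
          intro y
          obtain ⟨b, hb, h'⟩ := h (r * y)
          refine ⟨b, hb, ?_⟩
          have : r • z * y - b = z * (r * y) - b := by rw [smul_eq_mul]; ring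
          rw [this]
          exact h'
      intro y
      obtain ⟨c, hc⟩ := hres (residue A y)
      have hz : y - algebraMap 𝒪 A c ∈ maximalIdeal A := by
        rw [← residue_eq_zero_iff, map_sub, sub_eq_zero]
        exact hc.symm
      obtain ⟨b, hb, hb'⟩ := step _ hz 1
      refine ⟨algebraMap 𝒪 A c + b, B.add_mem (B.algebraMap_mem c) hb, ?_⟩
      have : y - (algebraMap 𝒪 A c + b) = (y - algebraMap 𝒪 A c) * 1 - b := by ring
      rw [this]
      exact hb'
  obtain ⟨n, hn⟩ := hnil
  intro y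
  obtain ⟨b, hb, hyb⟩ := key n y
  rw [hn, Ideal.mem_bot, sub_eq_zero] at hyb
  obtain ⟨f, hf⟩ := hb
  exact ⟨f, by rw [hyb]; exact hf⟩

end Local

end

end Fermat.Agent.Lib.Helper4
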