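import Mathlib

set_option autoImplicit false

universe u

namespace Fermat.Agent.Lib.Helper4

open IsLocalRing RingTheory.Sequence Pointwise CategoryTheory Abelian

section AssPrime

variable {R : Type*} [CommRing R] [IsNoetherianRing R]
variable {M : Type*} [AddCommGroup M] [Module R M] [Module.Finite R M]

/-- If `a` is `M`-regular and lies in the Jacobson radical, every associated prime `p` of `M`
is contained in an associated prime of `M/aM` that also contains `a`. -/
theorem exists_assPrime_quotSMulTop {a : R} (ha : a ∈ (⊥ : Ideal R).jacobson)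
    (hreg : IsSMulRegular M a) {p : Ideal R} (hp : p ∈ associatedPrimes R M) :
    ∃ q : Ideal R, q ∈ associatedPrimes R (QuotSMulTop a M) ∧ p ≤ q ∧ a ∈ q := by
  classical
  -- the submodule killed by `p`
  let M' : Submodule R M :=
    { carrier := {m | ∀ x ∈ p, x • m = 0}
      zero_mem' := fun x _ => smul_zero x
      add_mem' := fun {m n} hm hn x hx => by rw [smul_add, hm x hx, hn x hx, add_zero]
      smul_mem' := fun c m hm x hx => by rw [smul_comm, hm x hx, smul_zero] }
  have hM'ne : M' ≠ ⊥ := by
    obtain ⟨hprime, m₀, hm₀⟩ := (isAssociatedPrime_iff (M := M)).mp hp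
    intro hbot
    have hm₀mem : m₀ ∈ M' := fun x hx => by
      have : x ∈ (⊥ : Submodule R M).colon {m₀} := hm₀ ▸ hx
      simpa [Submodule.mem_colon_singleton] using this
    rw [hbot, Submodule.mem_bot] at hm₀mem
    apply hprime.ne_top
    rw [hm₀, hm₀mem]
    ext x
    simp [Submodule.mem_colon_singleton]
  have hnot : ¬ (M' ≤ a • (⊤ : Submodule R M)) := by
    intro hle
    apply hM'ne
    apply Submodule.eq_bot_of_le_smul_of_le_jacobson_bot (Ideal.span {a}) M'
      (IsNoetherian.noetherian M')
    · intro m hm
      obtain ⟨m'', -, rfl⟩ := (Submodule.mem_smul_pointwise_iff_exists _ _ _).mp (hle hm)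
      have hm'' : m'' ∈ M' := fun x hx => by
        have h1 : a • (x • m'') = 0 := by rw [smul_comm]; exact hm x hx
        exact hreg (by simpa using h1)
      rw [Submodule.ideal_span_singleton_smul]
      exact Submodule.smul_mem_pointwise_smul m'' a M' hm''
    · rw [Ideal.span_singleton_le_iff_mem]
      exact ha
  obtain ⟨m', hm'mem, hm'not⟩ := Set.not_subset.mp hnot
  have hne : (Submodule.Quotient.mk m' : QuotSMulTop a M) ≠ 0 := by
    rwa [ne_eq, Submodule.Quotient.mk_eq_zero]
  obtain ⟨q, hq, hle⟩ := exists_le_isAssociatedPrime_of_isNoetherianRing R _ hne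
  refine ⟨q, hq, fun x hx => hle ?_, hle ?_⟩
  · rw [Submodule.mem_colon_singleton, Submodule.mem_bot, ← Submodule.Quotient.mk_smul,
      hm'mem x hx, Submodule.Quotient.mk_zero]
  · rw [Submodule.mem_colon_singleton, Submodule.mem_bot, ← Submodule.Quotient.mk_smul,
      Submodule.Quotient.mk_eq_zero]
    exact Submodule.smul_mem_pointwise_smul m' a ⊤ Submodule.mem_top

/-- For primes `p < q`, `dim R/q + 1 ≤ dim R/p`. -/
theorem ringKrullDim_quotient_succ_le_of_lt {R : Type*} [CommRing R] {p q : Ideal R}
    [hp : p.IsPrime] (hpq : p < q) :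
    ringKrullDim (R ⧸ q) + 1 ≤ ringKrullDim (R ⧸ p) := by
  obtain ⟨r, hrq, hrp⟩ := Set.exists_of_ssubset hpq
  have hr0 : (Ideal.Quotient.mk p r) ≠ 0 := by
    rwa [ne_eq, Ideal.Quotient.eq_zero_iff_mem]
  have hnzd : Ideal.Quotient.mk p r ∈ nonZeroDivisors (R ⧸ p) :=
    mem_nonZeroDivisors_of_ne_zero hr0
  refine le_trans ?_ (ringKrullDim_quotient_succ_le_of_nonZeroDivisor hnzd)
  gcongr
  -- surjection (R/p)/(r) → R/q
  have hle : p ≤ q := hpq.le
  let f : R ⧸ p →+* R ⧸ q := Ideal.Quotient.factor hle
  have hf : Function.Surjective f := Ideal.Quotient.factor_surjective hle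
  have hker : Ideal.span {Ideal.Quotient.mk p r} ≤ RingHom.ker f := by
    rw [Ideal.span_singleton_le_iff_mem, RingHom.mem_ker]
    simp only [f, Ideal.Quotient.factor_mk, Ideal.Quotient.eq_zero_iff_mem]
    exact hrq
  exact ringKrullDim_le_of_surjective (Ideal.Quotient.lift _ f hker)
    (Ideal.Quotient.lift_surjective_of_surjective _ hker hf)

end AssPrime

section Depth

variable {R : Type*} [CommRing R] [IsNoetherianRing R] [IsLocalRing R]

/-- Matsumura 17.2: the length of a regular sequence (in the maximal ideal) on a finite module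
is at most `dim R/p` for every associated prime `p`. -/
theorem length_le_ringKrullDim_quotient_of_isRegular :
    ∀ (rs : List R) (M : Type*) [AddCommGroup M] [Module R M] [Module.Finite R M]
      (_hmem : ∀ r ∈ rs, r ∈ maximalIdeal R) (_hreg : IsRegular M rs)
      (p : Ideal R) (_hp : p ∈ associatedPrimes R M),
      (rs.length : WithBot ℕ∞) ≤ ringKrullDim (R ⧸ p)
  | [], M, _, _, _, _, _, p, hp => by
    have : p.IsPrime := hp.1
    simpa using ringKrullDim_nonneg_of_nontrivial (R := R ⧸ p)
  | a :: rs, M, _, _, _, hmem, hreg, p, hp => by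
    have : p.IsPrime := hp.1
    rw [isRegular_cons_iff] at hreg
    have ha : a ∈ maximalIdeal R := hmem a List.mem_cons_self
    have hajac : a ∈ (⊥ : Ideal R).jacobson := by
      rw [IsLocalRing.jacobson_eq_maximalIdeal ⊥ bot_ne_top]; exact ha
    obtain ⟨q, hq, hpq, haq⟩ := exists_assPrime_quotSMulTop hajac hreg.1 hp
    have : q.IsPrime := hq.1
    have hap : a ∉ p := by
      intro hap
      have hmem' : a ∈ ⋃ p ∈ associatedPrimes R M, (p : Set R) :=
        Set.mem_biUnion hp hap
      rw [biUnion_associatedPrimes_eq_compl_regular] at hmem'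
      exact hmem' hreg.1
    have hlt : p < q := lt_of_le_of_ne hpq (fun h => hap (h ▸ haq))
    have ih := length_le_ringKrullDim_quotient_of_isRegular rs (QuotSMulTop a M)
      (fun r hr => hmem r (List.mem_cons_of_mem _ hr)) hreg.2 q hq
    calc ((a :: rs).length : WithBot ℕ∞) = (rs.length : WithBot ℕ∞) + 1 := by
          simp [List.length_cons]
      _ ≤ ringKrullDim (R ⧸ q) + 1 := by gcongr
      _ ≤ ringKrullDim (R ⧸ p) := ringKrullDim_quotient_succ_le_of_lt hlt

end Depth

section Exchange


variable {R : Type u} [CommRing R] [IsNoetherianRing R] [IsLocalRing R]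

omit [IsNoetherianRing R] in
theorem maximalIdeal_smul_top_lt_top (M : Type u) [AddCommGroup M] [Module R M] [Module.Finite R M]
    [Nontrivial M] : maximalIdeal R • (⊤ : Submodule R M) < ⊤ :=
  Ne.lt_top (Submodule.top_ne_ideal_smul_of_le_jacobson_annihilator
    (maximalIdeal_le_jacobson _)).symm

theorem exists_isRegular_quotSMulTop (M : Type u) [AddCommGroup M] [Module R M] [Module.Finite R M]
    {n : ℕ} (h : ∃ rs : List R, rs.length = n + 1 ∧ (∀ r ∈ rs, r ∈ maximalIdeal R) ∧ IsRegular M rs)
    {a : R} (ha : a ∈ maximalIdeal R) (hreg : IsSMulRegular M a) :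
    ∃ rs : List R, rs.length = n ∧ (∀ r ∈ rs, r ∈ maximalIdeal R) ∧
      IsRegular (QuotSMulTop a M) rs := by
  have hnt : Nontrivial M := by
    obtain ⟨rs, -, -, hrs⟩ := h
    exact hrs.nontrivial
  have hnt' : Nontrivial (QuotSMulTop a M) := nontrivial_quotSMulTop_of_mem_maximalIdeal M ha
  have h1 := (ModuleCat.exists_isRegular_tfae (maximalIdeal R) (n + 1) (ModuleCat.of R M)
    (maximalIdeal_smul_top_lt_top M)).out 3 1
  have h2 := (ModuleCat.exists_isRegular_tfae (maximalIdeal R) n
    (ModuleCat.of R (QuotSMulTop a M))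
    (maximalIdeal_smul_top_lt_top (QuotSMulTop a M))).out 1 3
  apply h2.mp
  have hext := h1.mp h
  intro i hi
  have zero1 := AddCommGrpCat.isZero_of_iff_subsingleton.mpr (hext i (by omega))
  have zero2 := AddCommGrpCat.isZero_of_iff_subsingleton.mpr (hext (i + 1) (by omega))
  exact AddCommGrpCat.subsingleton_of_isZero <| ShortComplex.Exact.isZero_of_both_zeros
    ((Ext.covariant_sequence_exact₃' _ (hreg.smulShortComplex_shortExact (M := ModuleCat.of R M)))
      i (i + 1) rfl)
    (zero1.eq_zero_of_src _) (zero2.eq_zero_of_tgt _)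


end Exchange


section LemC
variable {R : Type*} [CommRing R] [IsNoetherianRing R] [IsLocalRing R]

omit [IsNoetherianRing R] in
theorem isLocalRing_quotient_span_singleton {x : R} (hx : x ∈ maximalIdeal R) :
    IsLocalRing (R ⧸ Ideal.span {x}) := by
  have hne : Ideal.span {x} ≠ ⊤ := by
    intro h
    have : (1 : R) ∈ maximalIdeal R := by
      have h1 : (1 : R) ∈ Ideal.span {x} := h ▸ Submodule.mem_top
      exact (Ideal.span_singleton_le_iff_mem (maximalIdeal R)).mpr hx h1
    exact (Ideal.ne_top_iff_one _).mp (maximalIdeal.isMaximal R).ne_top this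
  have : Nontrivial (R ⧸ Ideal.span {x}) := Ideal.Quotient.nontrivial_iff.mpr hne
  exact IsLocalRing.of_surjective' (Ideal.Quotient.mk (Ideal.span {x})) Ideal.Quotient.mk_surjective

omit [IsNoetherianRing R] in
theorem maximalIdeal_quotient_span_singleton {x : R} (hx : x ∈ maximalIdeal R) (xs : List R)
    (hspan : Ideal.ofList (x :: xs) = maximalIdeal R) :
    haveI := isLocalRing_quotient_span_singleton hx
    Ideal.ofList (xs.map (Ideal.Quotient.mk (Ideal.span {x}))) =
      maximalIdeal (R ⧸ Ideal.span {x}) := by
  have := isLocalRing_quotient_span_singleton hx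
  have h1 : maximalIdeal (R ⧸ Ideal.span {x}) =
      (maximalIdeal R).map (Ideal.Quotient.mk (Ideal.span {x})) := by
    symm
    apply IsLocalRing.eq_maximalIdeal
    exact Ideal.IsMaximal.map_of_surjective_of_ker_le Ideal.Quotient.mk_surjective
      (by rw [Ideal.mk_ker, Ideal.span_singleton_le_iff_mem]; exact hx)
  rw [h1, ← hspan, Ideal.map_ofList, List.map_cons, Ideal.ofList_cons, Ideal.Quotient.eq_zero_iff_mem.mpr
    (Ideal.mem_span_singleton_self x)]
  simp

/-- If the maximal ideal is generated by `x :: xs` and `M` carries a regular sequence of length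
`xs.length + 1` inside the maximal ideal, then `x` is `M`-regular. -/
theorem isSMulRegular_head_of_isRegular {M : Type*} [AddCommGroup M] [Module R M]
    [Module.Finite R M] {x : R} (xs : List R)
    (hspan : Ideal.ofList (x :: xs) = maximalIdeal R)
    (rs : List R) (hlen : rs.length = xs.length + 1) (hmem : ∀ r ∈ rs, r ∈ maximalIdeal R)
    (hreg : IsRegular M rs) : IsSMulRegular M x := by
  by_contra hx
  have hx' : x ∈ ({r | IsSMulRegular M r}ᶜ : Set R) := hx
  rw [← biUnion_associatedPrimes_eq_compl_regular] at hx'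
  obtain ⟨p, hp, hxp⟩ := Set.mem_iUnion₂.mp hx'
  have hpprime : p.IsPrime := hp.1
  have hxm : x ∈ maximalIdeal R := by
    rw [← hspan, Ideal.ofList_cons]
    exact Ideal.mem_sup_left (Ideal.mem_span_singleton_self x)
  have hloc := isLocalRing_quotient_span_singleton hxm
  have h1 := length_le_ringKrullDim_quotient_of_isRegular rs M hmem hreg p hp
  have hle : Ideal.span {x} ≤ p := (Ideal.span_singleton_le_iff_mem p).mpr hxp
  have h2 : ringKrullDim (R ⧸ p) ≤ ringKrullDim (R ⧸ Ideal.span {x}) :=
    ringKrullDim_le_of_surjective (Ideal.Quotient.factor hle) (Ideal.Quotient.factor_surjective hle)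
  have h3 := ringKrullDim_le_spanFinrank_maximalIdeal (R ⧸ Ideal.span {x})
  have h4 : (maximalIdeal (R ⧸ Ideal.span {x})).spanFinrank ≤ xs.length := by
    rw [← maximalIdeal_quotient_span_singleton hxm xs hspan, Ideal.ofList]
    refine le_trans (Submodule.spanFinrank_span_le_ncard_of_finite (List.finite_toSet _)) ?_
    classical
    have : {r | r ∈ xs.map (Ideal.Quotient.mk (Ideal.span {x}))} =
        ((xs.map (Ideal.Quotient.mk (Ideal.span {x}))).toFinset : Set _) := by
      ext; simp
    rw [this, Set.ncard_coe_finset]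
    exact le_trans (List.toFinset_card_le _) (by simp)
  have h5 : ((xs.length + 1 : ℕ) : WithBot ℕ∞) ≤ (xs.length : WithBot ℕ∞) := by
    rw [← hlen]
    refine h1.trans (h2.trans (h3.trans ?_))
    exact_mod_cast h4
  have h6 : (xs.length + 1 : ℕ) ≤ xs.length := by exact_mod_cast h5
  omega

end LemC


section Core


/-- Core lemma: over a Noetherian local ring whose maximal ideal is generated by `n` elements,
a finite module with a regular sequence of length `n` in the maximal ideal is free. -/
theorem free_of_isRegular_of_length_eq :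
    ∀ (n : ℕ) (R : Type u) [CommRing R] [IsNoetherianRing R] [IsLocalRing R]
      (M : Type u) [AddCommGroup M] [Module R M] [Module.Finite R M]
      (xs : List R) (_ : xs.length = n) (_ : Ideal.ofList xs = maximalIdeal R)
      (rs : List R) (_ : rs.length = n) (_ : ∀ r ∈ rs, r ∈ maximalIdeal R)
      (_ : IsRegular M rs), Module.Free R M
  | 0, R, _, _, _, M, _, _, _, xs, hxs, hspan, rs, hrs, hmem, hreg => by
    have hnil : xs = [] := List.length_eq_zero_iff.mp hxs
    have hbot : maximalIdeal R = ⊥ := by
      rw [← hspan, hnil, Ideal.ofList_nil]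
    have hfield : IsField R := (IsLocalRing.isField_iff_maximalIdeal_eq).mpr hbot
    let := hfield.toField
    exact Module.Free.of_divisionRing R M
  | n + 1, R, _, _, _, M, _, _, _, xs, hxs, hspan, rs, hrs, hmem, hreg => by
    match xs, hxs with
    | x :: xs', hxs =>
      have hxs' : xs'.length = n := by simpa using hxs
      have hxm : x ∈ maximalIdeal R := by
        rw [← hspan, Ideal.ofList_cons]
        exact Ideal.mem_sup_left (Ideal.mem_span_singleton_self x)
      have hxreg : IsSMulRegular M x :=
        isSMulRegular_head_of_isRegular xs' hspan rs (by rw [hrs, hxs']) hmem hreg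
      obtain ⟨rs', hrs'len, hrs'mem, hrs'reg⟩ :=
        exists_isRegular_quotSMulTop M ⟨rs, hrs, hmem, hreg⟩ hxm hxreg
      have hloc := isLocalRing_quotient_span_singleton hxm
      have hmax := maximalIdeal_quotient_span_singleton hxm xs' hspan
      have hreg' : IsRegular (QuotSMulTop x M) (rs'.map (Ideal.Quotient.mk (Ideal.span {x}))) :=
        ((isRegular_cons_iff' M x rs').mp ((isRegular_cons_iff M x rs').mpr ⟨hxreg, hrs'reg⟩)).2
      have hfin : Module.Finite (R ⧸ Ideal.span {x}) (QuotSMulTop x M) :=
        Module.Finite.of_restrictScalars_finite R _ _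
      have hfree : Module.Free (R ⧸ Ideal.span {x}) (QuotSMulTop x M) :=
        free_of_isRegular_of_length_eq n (R ⧸ Ideal.span {x}) (QuotSMulTop x M)
          (xs'.map (Ideal.Quotient.mk (Ideal.span {x}))) (by simpa using hxs') hmax
          (rs'.map (Ideal.Quotient.mk (Ideal.span {x}))) (by simpa using hrs'len)
          (by
            intro r hr
            obtain ⟨r₀, hr₀, rfl⟩ := List.mem_map.mp hr
            have h1 : maximalIdeal (R ⧸ Ideal.span {x}) =
                (maximalIdeal R).map (Ideal.Quotient.mk (Ideal.span {x})) := by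
              rw [← hmax, ← hspan, Ideal.map_ofList, List.map_cons, Ideal.ofList_cons,
                Ideal.Quotient.eq_zero_iff_mem.mpr (Ideal.mem_span_singleton_self x)]
              simp
            rw [h1]
            exact Ideal.mem_map_of_mem _ (hrs'mem r₀ hr₀))
          hreg'
      have hjac : x ∈ (⊥ : Ideal R).jacobson := by
        rw [IsLocalRing.jacobson_eq_maximalIdeal ⊥ bot_ne_top]; exact hxm
      have : Module.FinitePresentation R M := Module.finitePresentation_of_finite R M
      exact (Module.free_quotSMulTop_iff_free R M hjac hxreg).mp hfree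


end Core

end Fermat.Agent.Lib.Helper4
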