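/-
S53 assembly, parts (F)+(G): from a universal rigid lift over `R` (pro-representability on
Artinian test algebras) to `DeformationRingData`.
-/
import Mathlib
import Fermat.Agent.Lib.S53.Defs

set_option autoImplicit false
set_option linter.unusedSectionVars false

namespace Fermat.Agent.Lib.Helper4.S53

open IsLocalRing GaloisRep Fermat.Agent.Lib.S53

section General

variable {𝒪 : Type} [CommRing 𝒪] [IsLocalRing 𝒪]

/-- An `𝒪`-algebra map between local `𝒪`-algebras is automatically local as soon as the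
residue field of the target is generated by `𝒪`. -/
theorem isLocalHom_of_residue_surjective {A B : Type} [CommRing A] [IsLocalRing A] [Algebra 𝒪 A]
    [CommRing B] [IsLocalRing B] [Algebra 𝒪 B]
    (hB : Function.Surjective (residue B ∘ algebraMap 𝒪 B)) (φ : A →ₐ[𝒪] B) :
    IsLocalHom (φ : A →+* B) := by
  refine ⟨fun x hx => ?_⟩
  by_contra hx'
  have hxm : x ∈ maximalIdeal A := hx'
  obtain ⟨c, hc⟩ := hB (residue B (↑(hx.unit⁻¹)))
  have hmem : x * algebraMap 𝒪 A c ∈ maximalIdeal A := Ideal.mul_mem_right _ _ hxm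
  have hu : IsUnit (1 - x * algebraMap 𝒪 A c) := by
    by_contra h
    have h1 : (1 - x * algebraMap 𝒪 A c) ∈ maximalIdeal A := h
    have : (1 : A) ∈ maximalIdeal A := by
      have := Ideal.add_mem _ h1 hmem
      simpa using this
    exact (Ideal.ne_top_iff_one _).mp (maximalIdeal.isMaximal A).ne_top this
  have hu' : IsUnit ((φ : A →+* B) (1 - x * algebraMap 𝒪 A c)) := hu.map _
  have hres : residue B ((φ : A →+* B) (1 - x * algebraMap 𝒪 A c)) = 0 := by
    have h2 : (φ : A →+* B) (1 - x * algebraMap 𝒪 A c) = 1 - φ x * algebraMap 𝒪 B c := by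
      simp
    rw [h2, map_sub, map_mul, map_one]
    have h3 : residue B (algebraMap 𝒪 B c) = residue B (↑(hx.unit⁻¹)) := hc
    rw [h3, ← map_mul]
    have h4 : φ x * ↑(hx.unit⁻¹) = 1 := by
      have := hx.unit.mul_inv
      simpa using this
    rw [h4, map_one, sub_self]
  rw [residue_eq_zero_iff] at hres
  exact hres hu'

end General

section Quotient

variable {𝒪 : Type} [CommRing 𝒪] [IsLocalRing 𝒪]
variable {A : Type} [CommRing A] [IsLocalRing A] [Algebra 𝒪 A]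

theorem pow_succ_ne_top (n : ℕ) : maximalIdeal A ^ (n + 1) ≠ ⊤ := by
  intro h
  have h1 : maximalIdeal A ^ (n + 1) ≤ maximalIdeal A := Ideal.pow_le_self (Nat.succ_ne_zero n)
  rw [h] at h1
  exact (maximalIdeal.isMaximal A).ne_top (top_le_iff.mp h1)

instance nontrivial_quotient_pow_succ (n : ℕ) : Nontrivial (A ⧸ maximalIdeal A ^ (n + 1)) :=
  Ideal.Quotient.nontrivial_iff.mpr (pow_succ_ne_top n)

instance isLocalRing_quotient_pow_succ (n : ℕ) : IsLocalRing (A ⧸ maximalIdeal A ^ (n + 1)) :=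
  IsLocalRing.of_surjective' (Ideal.Quotient.mk _) Ideal.Quotient.mk_surjective

instance isLocalHom_mk_pow_succ (n : ℕ) :
    IsLocalHom (Ideal.Quotient.mk (maximalIdeal A ^ (n + 1))) :=
  IsLocalHom.of_surjective _ Ideal.Quotient.mk_surjective

instance isLocalHom_algebraMap_quotient_pow_succ [IsLocalHom (algebraMap 𝒪 A)] (n : ℕ) :
    IsLocalHom (algebraMap 𝒪 (A ⧸ maximalIdeal A ^ (n + 1))) := by
  refine ⟨fun x hx => ?_⟩
  rw [← Ideal.Quotient.mk_algebraMap] at hx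
  exact isUnit_of_map_unit (algebraMap 𝒪 A) x
    (isUnit_of_map_unit (Ideal.Quotient.mk (maximalIdeal A ^ (n + 1))) _ hx)

theorem residue_surjective_quotient_pow_succ
    (hA : Function.Surjective (residue A ∘ algebraMap 𝒪 A)) (n : ℕ) :
    Function.Surjective (residue (A ⧸ maximalIdeal A ^ (n + 1)) ∘
      algebraMap 𝒪 (A ⧸ maximalIdeal A ^ (n + 1))) := by
  intro y
  obtain ⟨y', rfl⟩ := residue_surjective y
  obtain ⟨a, rfl⟩ := Ideal.Quotient.mk_surjective y'
  obtain ⟨c, hc⟩ := hA (residue A a)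
  refine ⟨c, ?_⟩
  have h1 : a - algebraMap 𝒪 A c ∈ maximalIdeal A := by
    rw [← residue_eq_zero_iff, map_sub, sub_eq_zero]
    exact hc.symm
  have h2 : Ideal.Quotient.mk (maximalIdeal A ^ (n + 1)) (a - algebraMap 𝒪 A c) ∈
      maximalIdeal (A ⧸ maximalIdeal A ^ (n + 1)) :=
    map_nonunit (Ideal.Quotient.mk (maximalIdeal A ^ (n + 1))) _ h1
  rw [← residue_eq_zero_iff, map_sub, map_sub, sub_eq_zero, Ideal.Quotient.mk_algebraMap] at h2
  exact h2.symm

theorem maximalIdeal_quotient_pow_succ (n : ℕ) :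
    maximalIdeal (A ⧸ maximalIdeal A ^ (n + 1)) =
      (maximalIdeal A).map (Ideal.Quotient.mk (maximalIdeal A ^ (n + 1))) := by
  apply le_antisymm
  · intro y hy
    obtain ⟨a, rfl⟩ := Ideal.Quotient.mk_surjective y
    refine Ideal.mem_map_of_mem _ ?_
    by_contra ha
    have ha' : IsUnit a := by
      by_contra h
      exact ha h
    exact hy (ha'.map _)
  · rw [Ideal.map_le_iff_le_comap]
    intro a ha
    exact map_nonunit (Ideal.Quotient.mk (maximalIdeal A ^ (n + 1))) _ ha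

theorem maximalIdeal_quotient_pow_succ_pow (n : ℕ) :
    maximalIdeal (A ⧸ maximalIdeal A ^ (n + 1)) ^ (n + 1) = ⊥ := by
  rw [maximalIdeal_quotient_pow_succ, ← Ideal.map_pow, Ideal.map_quotient_self]

instance isArtinianRing_quotient_pow_succ [IsNoetherianRing A] (n : ℕ) :
    IsArtinianRing (A ⧸ maximalIdeal A ^ (n + 1)) := by
  rw [isArtinianRing_iff_isNilpotent_maximalIdeal]
  exact ⟨n + 1, maximalIdeal_quotient_pow_succ_pow n⟩

theorem isArtinianTestAlgebra_quotient_pow_succ [IsNoetherianRing A]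
    [IsLocalHom (algebraMap 𝒪 A)]
    (hA : Function.Surjective (residue A ∘ algebraMap 𝒪 A)) (n : ℕ) :
    IsArtinianTestAlgebra 𝒪 (A ⧸ maximalIdeal A ^ (n + 1)) :=
  ⟨inferInstance, residue_surjective_quotient_pow_succ hA n, inferInstance⟩

end Quotient

section Rigid

variable {𝒪 : Type} [CommRing 𝒪] [IsLocalRing 𝒪]
variable {ρbar : ResidualGaloisRep (ResidueField 𝒪)} (F : Frame 𝒪 ρbar)
variable {A : Type} [CommRing A] [IsLocalRing A] [Algebra 𝒪 A] [IsLocalHom (algebraMap 𝒪 A)]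
variable {B : Type} [CommRing B] [IsLocalRing B] [Algebra 𝒪 B] [IsLocalHom (algebraMap 𝒪 B)]

/-- Rigid lifts push forward along local `𝒪`-algebra maps. -/
theorem isRigid_map (φ : A →ₐ[𝒪] B) (hφ : IsLocalHom (φ : A →+* B)) {ρ : MatRep A}
    (hρ : IsRigid F ρ) : IsRigid F (ρ.map (φ : A →+* B) hφ) := by
  refine ⟨fun σ a b => ?_, ?_, ?_, ?_⟩
  · rw [MatRep.map_r_apply]
    have h1 : residue B ((φ : A →+* B) (ρ.r σ a b)) =
        ResidueField.map (φ : A →+* B) (residue A (ρ.r σ a b)) :=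
      (ResidueField.map_residue (φ : A →+* B) _).symm
    rw [h1, hρ.reduces σ a b, ResidueField.map_map]
    congr 2
    exact φ.comp_algebraMap
  · rw [MatRep.map_r_apply, hρ.col_zero, map_zero]
  · rw [MatRep.map_r_apply, hρ.col_one, map_one]
  · rw [MatRep.map_r_apply, hρ.entry]
    exact φ.commutes _

/-- Hausdorff separation, in the form we use. -/
theorem eq_of_forall_mk_pow_succ_eq [IsNoetherianRing A] (a b : A)
    (h : ∀ n : ℕ, Ideal.Quotient.mk (maximalIdeal A ^ (n + 1)) a =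
      Ideal.Quotient.mk (maximalIdeal A ^ (n + 1)) b) : a = b := by
  rw [← sub_eq_zero]
  have hmem : a - b ∈ (⨅ n : ℕ, maximalIdeal A ^ n) := by
    rw [Ideal.mem_iInf]
    intro n
    have := h n
    rw [Ideal.Quotient.eq] at this
    exact Ideal.pow_le_pow_right (Nat.le_succ n) this
  rw [Ideal.iInf_pow_eq_bot_of_isLocalRing _ (maximalIdeal.isMaximal A).ne_top] at hmem
  exact hmem

/-- A matrix representation all of whose reductions modulo `𝔪^(n+1)` are rigid is rigid. -/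
theorem isRigid_of_levelwise [IsNoetherianRing A] (ρ : MatRep A)
    (h : ∀ n : ℕ, IsRigid F (ρ.map (Ideal.Quotient.mk (maximalIdeal A ^ (n + 1))) inferInstance)) :
    IsRigid F ρ := by
  refine ⟨fun σ a b => ?_, ?_, ?_, ?_⟩
  · have h0 := (h 0).reduces σ a b
    rw [MatRep.map_r_apply] at h0
    have hinj : Function.Injective
        (ResidueField.map (Ideal.Quotient.mk (maximalIdeal A ^ (0 + 1)))) :=
      RingHom.injective _
    apply hinj
    rw [ResidueField.map_residue, h0, ResidueField.map_map]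
    congr 2
  · apply eq_of_forall_mk_pow_succ_eq
    intro n
    have := (h n).col_zero
    rw [MatRep.map_r_apply] at this
    rw [this, map_zero]
  · apply eq_of_forall_mk_pow_succ_eq
    intro n
    have := (h n).col_one
    rw [MatRep.map_r_apply] at this
    rw [this, map_one]
  · apply eq_of_forall_mk_pow_succ_eq
    intro n
    have := (h n).entry
    rw [MatRep.map_r_apply] at this
    rw [this, Ideal.Quotient.mk_algebraMap]

end Rigid

section Equiv

variable {A : Type} [CommRing A] [IsLocalRing A]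

theorem isEquiv_symm {ρ₁ ρ₂ : GaloisRepAdic A} (h : ρ₁.IsEquiv ρ₂) : ρ₂.IsEquiv ρ₁ :=
  h.elim fun e => ⟨e.symm⟩

theorem isEquiv_trans {ρ₁ ρ₂ ρ₃ : GaloisRepAdic A} (h : ρ₁.IsEquiv ρ₂) (h' : ρ₂.IsEquiv ρ₃) :
    ρ₁.IsEquiv ρ₃ :=
  h.elim fun e => h'.elim fun e' => ⟨e.trans e'⟩

theorem isEquiv_baseChangeAlong {B : Type} [CommRing B] [IsLocalRing B] (φ : A →+* B)
    (hφ : IsLocalHom φ) {ρ₁ ρ₂ : GaloisRepAdic A} (h : ρ₁.IsEquiv ρ₂) :
    (ρ₁.baseChangeAlong φ hφ).IsEquiv (ρ₂.baseChangeAlong φ hφ) :=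
  h.elim fun e => ⟨e.baseChangeAlong φ hφ⟩

end Equiv

section Main

variable {𝒪 : Type} [CommRing 𝒪] [IsLocalRing 𝒪]
variable {ρbar : ResidualGaloisRep (ResidueField 𝒪)} (F : Frame 𝒪 ρbar)
variable (𝒟 : ∀ ⦃A : Type⦄ [CommRing A] [IsLocalRing A] [Algebra 𝒪 A], GaloisRepAdic A → Prop)

/-- The output of the representability step (E): a complete noetherian local `𝒪`-algebra `R`
with a matrix representation `ρu` over it which pro-represents rigid lifts of type `𝒟` on
Artinian test algebras. -/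
structure UnivData : Type 1 where
  R : Type
  [instCommRing : CommRing R]
  [instIsLocalRing : IsLocalRing R]
  [instIsNoetherianRing : IsNoetherianRing R]
  [instIsAdicComplete : IsAdicComplete (maximalIdeal R) R]
  [instAlgebra : Algebra 𝒪 R]
  [instIsLocalHom : IsLocalHom (algebraMap 𝒪 R)]
  residue_surjective : Function.Surjective (residue R ∘ algebraMap 𝒪 R)
  ρu : MatRep R
  rep_map : ∀ ⦃B : Type⦄ [CommRing B] [IsLocalRing B] [Algebra 𝒪 B] [IsLocalHom (algebraMap 𝒪 B)],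
    IsArtinianTestAlgebra 𝒪 B → ∀ (φ : R →ₐ[𝒪] B) (hφ : IsLocalHom (φ : R →+* B)),
      Function.Surjective φ →
        IsRigid F (ρu.map (φ : R →+* B) hφ) ∧ 𝒟 (ρu.map (φ : R →+* B) hφ).toGaloisRepAdic
  rep_bij : ∀ ⦃B : Type⦄ [CommRing B] [IsLocalRing B] [Algebra 𝒪 B] [IsLocalHom (algebraMap 𝒪 B)],
    IsArtinianTestAlgebra 𝒪 B → ∀ ρ : MatRep B, IsRigid F ρ → 𝒟 ρ.toGaloisRepAdic →
      ∃! φ : R →ₐ[𝒪] B, ∀ σ i j, φ (ρu.r σ i j) = ρ.r σ i j

attribute [instance] UnivData.instCommRing UnivData.instIsLocalRing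
  UnivData.instIsNoetherianRing UnivData.instIsAdicComplete
  UnivData.instAlgebra UnivData.instIsLocalHom

/-- (C1) base change of the `GaloisRepAdic` of a matrix representation is the `GaloisRepAdic`
of the entrywise pushforward. -/
def HypC1 : Prop :=
  ∀ ⦃A B : Type⦄ [CommRing A] [IsLocalRing A] [CommRing B] [IsLocalRing B] (φ : A →+* B)
    (hφ : IsLocalHom φ) (ρ : MatRep A),
    ((ρ.toGaloisRepAdic).baseChangeAlong φ hφ).IsEquiv ((ρ.map φ hφ).toGaloisRepAdic)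

/-- (C4) a matrix representation reducing to `ρbar` in the frame has residual
representation equivalent to `ρbar`. -/
def HypC4 : Prop :=
  ∀ ⦃A : Type⦄ [CommRing A] [IsLocalRing A] [Algebra 𝒪 A] [IsLocalHom (algebraMap 𝒪 A)]
    (ρ : MatRep A), ReducesTo F ρ →
    ρ.toGaloisRepAdic.residual.IsEquiv
      (ρbar.baseChangeAlong (ResidueField.map (algebraMap 𝒪 A)))

/-- (RNF, existence) every deformation to a complete noetherian test algebra is equivalent to
a rigid matrix representation. -/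
def HypRNFExists : Prop :=
  ∀ ⦃A : Type⦄ [CommRing A] [IsLocalRing A] [IsNoetherianRing A]
    [IsAdicComplete (maximalIdeal A) A] [Algebra 𝒪 A] [IsLocalHom (algebraMap 𝒪 A)],
    Function.Surjective (residue A ∘ algebraMap 𝒪 A) → ∀ ρA : GaloisRepAdic A,
      ρA.residual.IsEquiv (ρbar.baseChangeAlong (ResidueField.map (algebraMap 𝒪 A))) →
      ∃ ρ : MatRep A, IsRigid F ρ ∧ ρ.toGaloisRepAdic.IsEquiv ρA

/-- (RNF, uniqueness) equivalent rigid matrix representations are equal. -/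
def HypRNFUnique : Prop :=
  ∀ ⦃A : Type⦄ [CommRing A] [IsLocalRing A] [IsNoetherianRing A]
    [IsAdicComplete (maximalIdeal A) A] [Algebra 𝒪 A] [IsLocalHom (algebraMap 𝒪 A)],
    Function.Surjective (residue A ∘ algebraMap 𝒪 A) → ∀ ρ ρ' : MatRep A,
      IsRigid F ρ → IsRigid F ρ' → ρ.toGaloisRepAdic.IsEquiv ρ'.toGaloisRepAdic → ρ = ρ'

variable {F 𝒟}

namespace UnivData

variable (U : UnivData F 𝒟)

/-- `R ⧸ 𝔪^(n+1)` is an Artinian test algebra. -/
theorem isATA_quotient (n : ℕ) :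
    IsArtinianTestAlgebra 𝒪 (U.R ⧸ maximalIdeal U.R ^ (n + 1)) :=
  isArtinianTestAlgebra_quotient_pow_succ U.residue_surjective n

/-- The universal matrix representation is rigid. -/
theorem isRigid_ρu : IsRigid F U.ρu := by
  apply isRigid_of_levelwise
  intro n
  have hloc : IsLocalHom ((Ideal.Quotient.mkₐ 𝒪 (maximalIdeal U.R ^ (n + 1)) :
      U.R →ₐ[𝒪] U.R ⧸ maximalIdeal U.R ^ (n + 1)) : U.R →+* U.R ⧸ maximalIdeal U.R ^ (n + 1)) :=
    isLocalHom_mk_pow_succ n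
  exact (U.rep_map (U.isATA_quotient n) (Ideal.Quotient.mkₐ 𝒪 _) hloc
    (Ideal.Quotient.mkₐ_surjective 𝒪 _)).1

/-- (F) the universal matrix representation is of type `𝒟`. -/
theorem isOfType_ρu (h𝒟 : IsDeformationCondition 𝒪 𝒟) (hC1 : HypC1) :
    𝒟 U.ρu.toGaloisRepAdic := by
  rw [h𝒟.iff_forall_surjective inferInstance U.residue_surjective]
  intro B _ _ _ hB q hq hqs
  have := hB.isLocalHom
  exact h𝒟.of_isEquiv hB (isEquiv_symm (hC1 (q : U.R →+* B) hq U.ρu)) (U.rep_map hB q hq hqs).2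

section Universal

variable {A : Type} [CommRing A] [IsLocalRing A] [IsNoetherianRing A]
  [IsAdicComplete (maximalIdeal A) A] [Algebra 𝒪 A] [IsLocalHom (algebraMap 𝒪 A)]

/-- The quotient map `A → A ⧸ 𝔪^(n+1)` as an `𝒪`-algebra map. -/
noncomputable abbrev pr (A : Type) [CommRing A] [IsLocalRing A] [Algebra 𝒪 A] (n : ℕ) :
    A →ₐ[𝒪] A ⧸ maximalIdeal A ^ (n + 1) :=
  Ideal.Quotient.mkₐ 𝒪 (maximalIdeal A ^ (n + 1))

theorem isLocalHom_pr (n : ℕ) :
    IsLocalHom ((pr (𝒪 := 𝒪) A n : A →ₐ[𝒪] A ⧸ maximalIdeal A ^ (n + 1)) :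
      A →+* A ⧸ maximalIdeal A ^ (n + 1)) :=
  isLocalHom_mk_pow_succ n

/-- Type `𝒟` transfers along equivalences over complete noetherian test algebras. -/
theorem of_isEquiv_complete (h𝒟 : IsDeformationCondition 𝒪 𝒟)
    (hA : Function.Surjective (residue A ∘ algebraMap 𝒪 A)) {ρ ρ' : GaloisRepAdic A}
    (e : ρ.IsEquiv ρ') (h : 𝒟 ρ) : 𝒟 ρ' := by
  rw [h𝒟.iff_forall_surjective inferInstance hA] at h ⊢
  intro B _ _ _ hB q hq hqs
  exact h𝒟.of_isEquiv hB (isEquiv_baseChangeAlong _ hq e) (h hB q hq hqs)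

/-- The reductions of a rigid lift of type `𝒟` are rigid lifts of type `𝒟`. -/
theorem isOfType_map_pr (h𝒟 : IsDeformationCondition 𝒪 𝒟) (hC1 : HypC1)
    (hA : Function.Surjective (residue A ∘ algebraMap 𝒪 A)) (ρ : MatRep A)
    (h : 𝒟 ρ.toGaloisRepAdic) (n : ℕ) :
    𝒟 (ρ.map ((pr (𝒪 := 𝒪) A n : A →ₐ[𝒪] A ⧸ maximalIdeal A ^ (n + 1)) :
      A →+* A ⧸ maximalIdeal A ^ (n + 1)) (isLocalHom_pr n)).toGaloisRepAdic := by
  have hAn := isArtinianTestAlgebra_quotient_pow_succ hA n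
  rw [h𝒟.iff_forall_surjective inferInstance hA] at h
  exact h𝒟.of_isEquiv hAn (hC1 _ (isLocalHom_pr n) ρ)
    (h hAn (pr A n) (isLocalHom_pr n) (Ideal.Quotient.mkₐ_surjective 𝒪 _))

/-- The classifying map of the `n`-th reduction of a rigid lift `ρ` of type `𝒟` over `A`. -/
theorem exists_unique_level (h𝒟 : IsDeformationCondition 𝒪 𝒟) (hC1 : HypC1)
    (hA : Function.Surjective (residue A ∘ algebraMap 𝒪 A)) (ρ : MatRep A) (hρ : IsRigid F ρ)
    (h : 𝒟 ρ.toGaloisRepAdic) (n : ℕ) :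
    ∃! φ : U.R →ₐ[𝒪] A ⧸ maximalIdeal A ^ (n + 1), ∀ σ i j,
      φ (U.ρu.r σ i j) = Ideal.Quotient.mk (maximalIdeal A ^ (n + 1)) (ρ.r σ i j) :=
  U.rep_bij (isArtinianTestAlgebra_quotient_pow_succ hA n) _
    (isRigid_map F (pr A n) (isLocalHom_pr n) hρ) (isOfType_map_pr h𝒟 hC1 hA ρ h n)

/-- Two `𝒪`-algebra maps `R → A` classifying the same rigid lift are equal. -/
theorem algHom_eq_of_entries (h𝒟 : IsDeformationCondition 𝒪 𝒟) (hC1 : HypC1)
    (hA : Function.Surjective (residue A ∘ algebraMap 𝒪 A)) (ρ : MatRep A) (hρ : IsRigid F ρ)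
    (h : 𝒟 ρ.toGaloisRepAdic) (φ φ' : U.R →ₐ[𝒪] A)
    (hφ : ∀ σ i j, φ (U.ρu.r σ i j) = ρ.r σ i j)
    (hφ' : ∀ σ i j, φ' (U.ρu.r σ i j) = ρ.r σ i j) : φ = φ' := by
  apply AlgHom.ext
  intro x
  apply eq_of_forall_mk_pow_succ_eq
  intro n
  obtain ⟨ψ, -, hψ⟩ := exists_unique_level U h𝒟 hC1 hA ρ hρ h n
  have h1 : (pr A n).comp φ = ψ := hψ _ fun σ i j => by
    rw [AlgHom.comp_apply, hφ]; rfl
  have h2 : (pr A n).comp φ' = ψ := hψ _ fun σ i j => by
    rw [AlgHom.comp_apply, hφ']; rfl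
  have := congrArg (fun f => f x) (h1.trans h2.symm)
  exact this

/-- Existence of the classifying map of a rigid lift of type `𝒟` over a complete noetherian
test algebra. -/
theorem exists_algHom_entries (h𝒟 : IsDeformationCondition 𝒪 𝒟) (hC1 : HypC1)
    (hA : Function.Surjective (residue A ∘ algebraMap 𝒪 A)) (ρ : MatRep A) (hρ : IsRigid F ρ)
    (h : 𝒟 ρ.toGaloisRepAdic) :
    ∃ φ : U.R →ₐ[𝒪] A, ∀ σ i j, φ (U.ρu.r σ i j) = ρ.r σ i j := by
  choose ψ hψ hψu using fun n => exists_unique_level U h𝒟 hC1 hA ρ hρ h n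
  let f : (n : ℕ) → U.R →ₐ[𝒪] A ⧸ maximalIdeal A ^ n := fun n =>
    (Ideal.Quotient.factorₐ 𝒪 (Ideal.pow_le_pow_right (Nat.le_succ n))).comp (ψ n)
  have hcompat : ∀ m n (hmn : m ≤ n), (Ideal.Quotient.factorₐ 𝒪
      (Ideal.pow_le_pow_right (I := maximalIdeal A) (Nat.succ_le_succ hmn))).comp (ψ n) = ψ m := by
    intro m n hmn
    apply hψu
    intro σ i j
    rw [AlgHom.comp_apply, hψ]
    rfl
  have hf : ∀ {m n : ℕ} (hle : m ≤ n),
      (Ideal.Quotient.factorₐ 𝒪 (Ideal.pow_le_pow_right hle)).comp (f n) = f m := by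
    intro m n hle
    ext x
    simp only [f, AlgHom.comp_apply, ← hcompat m n hle]
    obtain ⟨a, ha⟩ := Ideal.Quotient.mk_surjective (ψ n x)
    rw [← ha]
    rfl
  refine ⟨IsAdicComplete.liftAlgHom (maximalIdeal A) f hf, fun σ i j => ?_⟩
  apply eq_of_forall_mk_pow_succ_eq
  intro n
  have h1 := IsAdicComplete.mk_liftAlgHom (maximalIdeal A) f hf (n + 1) (U.ρu.r σ i j)
  rw [h1]
  simp only [f, AlgHom.comp_apply, hψ]
  rfl

end Universal

end UnivData

end Main

section Final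

variable {𝒪 : Type} [CommRing 𝒪] [IsDomain 𝒪] [IsDiscreteValuationRing 𝒪]
  [IsAdicComplete (maximalIdeal 𝒪) 𝒪]
variable {ρbar : ResidualGaloisRep (ResidueField 𝒪)} (F : Frame 𝒪 ρbar)
variable {𝒟 : ∀ ⦃A : Type⦄ [CommRing A] [IsLocalRing A] [Algebra 𝒪 A], GaloisRepAdic A → Prop}

/-- (F)+(G): assembly of `DeformationRingData` from the universal rigid lift. -/
theorem nonempty_deformationRingData_of_univData (habs : ρbar.IsAbsolutelyIrreducible)
    (h𝒟 : IsDeformationCondition 𝒪 𝒟) (hC1 : HypC1) (hC4 : HypC4 F)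
    (hE : HypRNFExists F) (hU : HypRNFUnique F) (U : UnivData F 𝒟) :
    Nonempty (DeformationRingData 𝒪 ρbar 𝒟) := by
  refine ⟨{
    R := U.R
    residue_surjective := U.residue_surjective
    absIrr := habs
    ρ := U.ρu.toGaloisRepAdic
    isOfType := U.isOfType_ρu h𝒟 hC1
    residual_isEquiv := hC4 U.ρu U.isRigid_ρu.reduces
    universal := ?_ }⟩
  intro A _ _ _ _ _ _ hA ρA h𝒟A hres
  obtain ⟨ρ, hρ, e⟩ := hE hA ρA hres
  have h𝒟ρ : 𝒟 ρ.toGaloisRepAdic :=
    UnivData.of_isEquiv_complete h𝒟 hA (isEquiv_symm e) h𝒟A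
  obtain ⟨φ, hφ⟩ := U.exists_algHom_entries h𝒟 hC1 hA ρ hρ h𝒟ρ
  have hloc : IsLocalHom (φ : U.R →+* A) := isLocalHom_of_residue_surjective hA φ
  have hmap : U.ρu.map (φ : U.R →+* A) hloc = ρ :=
    MatRep.ext fun σ => Matrix.ext fun i j => by
      rw [MatRep.map_r_apply]; exact hφ σ i j
  refine ⟨φ, ⟨hloc, ?_⟩, ?_⟩
  · refine isEquiv_trans (hC1 _ hloc U.ρu) ?_
    rw [hmap]
    exact e
  · rintro φ' ⟨hφ', e'⟩
    have e1 : (U.ρu.map (φ' : U.R →+* A) hφ').toGaloisRepAdic.IsEquiv ρ.toGaloisRepAdic :=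
      isEquiv_trans (isEquiv_symm (hC1 _ hφ' U.ρu)) (isEquiv_trans e' (isEquiv_symm e))
    have e2 := hU hA _ _ (isRigid_map F φ' hφ' U.isRigid_ρu) hρ e1
    refine U.algHom_eq_of_entries h𝒟 hC1 hA ρ hρ h𝒟ρ φ' φ (fun σ i j => ?_) hφ
    rw [← e2]
    rfl

end Final

end Fermat.Agent.Lib.Helper4.S53
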