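/-
S53: rigid normal form at the level of `MatRep` (wrapper around helper7's `nf_exists`/`nf_unique`,
helper6's dictionary and helper2's Schur lemma), and discharge of the hypotheses of the assembly.
-/
import Mathlib
import Fermat.Agent.Lib.S53.Defs
import Fermat.Agent.Lib.S53.Frame
import Fermat.Agent.Lib.Helper6.S53Dict
import Fermat.Agent.Lib.Helper7.NormalForm
import Fermat.Agent.Lib.Helper4.S53Assembly

set_option autoImplicit false
set_option linter.unusedSectionVars false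

namespace Fermat.Agent.Lib.Helper4.S53

open IsLocalRing GaloisRep Fermat.Agent.Lib.S53

section Schur

variable {𝒪 : Type} [CommRing 𝒪] [IsLocalRing 𝒪]
variable {ρbar : ResidualGaloisRep (ResidueField 𝒪)} (F : Frame 𝒪 ρbar)

/-- Schur's lemma in matrix form over `k`. -/
theorem scalar_of_commute_mat (habs : ρbar.IsAbsolutelyIrreducible)
    (X : Matrix (Fin 2) (Fin 2) (ResidueField 𝒪))
    (hX : ∀ σ : GQ, X * F.mat σ = F.mat σ * X) :
    ∃ c : ResidueField 𝒪, X = c • (1 : Matrix (Fin 2) (Fin 2) (ResidueField 𝒪)) := by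
  obtain ⟨c, hc⟩ := schur_of_isAbsolutelyIrreducible ρbar habs (Matrix.toLin F.b F.b X) (by
    intro σ
    have h1 : ρbar.ρ σ = Matrix.toLin F.b F.b (F.mat σ) := by
      unfold Frame.mat
      rw [Matrix.toLin_toMatrix]
    rw [h1, Module.End.mul_eq_comp, Module.End.mul_eq_comp, ← Matrix.toLin_mul,
      ← Matrix.toLin_mul, hX σ])
  refine ⟨c, ?_⟩
  have h2 := congrArg (LinearMap.toMatrix F.b F.b) hc
  rw [LinearMap.toMatrix_toLin, map_smul] at h2
  rw [h2]
  congr 1
  exact LinearMap.toMatrix_one F.b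

variable {A : Type} [CommRing A] [IsLocalRing A] [Algebra 𝒪 A] [IsLocalHom (algebraMap 𝒪 A)]

theorem residueFieldMap_bijective (hA : Function.Surjective (residue A ∘ algebraMap 𝒪 A)) :
    Function.Bijective (ResidueField.map (algebraMap 𝒪 A)) := by
  refine ⟨RingHom.injective _, fun y => ?_⟩
  obtain ⟨c, hc⟩ := hA y
  exact ⟨residue 𝒪 c, by rw [ResidueField.map_residue]; exact hc⟩

/-- Schur's lemma in matrix form over the residue field of a test algebra. -/
theorem scalar_of_commute_mat_residue (habs : ρbar.IsAbsolutelyIrreducible)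
    (hA : Function.Surjective (residue A ∘ algebraMap 𝒪 A))
    (X : Matrix (Fin 2) (Fin 2) (ResidueField A))
    (hX : ∀ σ : GQ, X * (F.mat σ).map (ResidueField.map (algebraMap 𝒪 A)) =
      (F.mat σ).map (ResidueField.map (algebraMap 𝒪 A)) * X) :
    ∃ c : ResidueField A, X = c • (1 : Matrix (Fin 2) (Fin 2) (ResidueField A)) := by
  set ψ := RingEquiv.ofBijective (ResidueField.map (algebraMap 𝒪 A))
    (residueFieldMap_bijective hA) with hψ
  have hψapp : ∀ x, ψ x = ResidueField.map (algebraMap 𝒪 A) x := fun x => rfl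
  obtain ⟨c, hc⟩ := scalar_of_commute_mat F habs (X.map ψ.symm) (by
    intro σ
    have h1 := congrArg (fun M : Matrix (Fin 2) (Fin 2) (ResidueField A) => M.map ψ.symm) (hX σ)
    simp only [Matrix.map_mul] at h1
    have h2 : ((F.mat σ).map (ResidueField.map (algebraMap 𝒪 A))).map ψ.symm = F.mat σ := by
      ext i j
      simp only [Matrix.map_apply]
      rw [← hψapp, RingEquiv.symm_apply_apply]
    rw [h2] at h1
    exact h1)
  refine ⟨ψ c, ?_⟩
  have h3 := congrArg (fun M : Matrix (Fin 2) (Fin 2) (ResidueField 𝒪) => M.map ψ) hc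
  have h4 : (X.map ψ.symm).map ψ = X := by
    ext i j
    simp
  rw [h4] at h3
  rw [h3]
  ext i j
  by_cases hij : i = j
  · subst hij; simp
  · simp [Matrix.one_apply_ne hij]

end Schur

section RNF

variable {𝒪 : Type} [CommRing 𝒪] [IsLocalRing 𝒪]
variable {ρbar : ResidualGaloisRep (ResidueField 𝒪)} (F : Frame 𝒪 ρbar)
variable {A : Type} [CommRing A] [IsLocalRing A] [Algebra 𝒪 A] [IsLocalHom (algebraMap 𝒪 A)]

local notation "M₂" => Matrix (Fin 2) (Fin 2)

/-- The reduction of a matrix representation reducing to `ρbar`. -/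
theorem mapMatrix_residue_eq {ρ : MatRep A} (h : ReducesTo F ρ) (σ : GQ) :
    (residue A).mapMatrix (ρ.r σ) =
      (ResidueField.map (algebraMap 𝒪 A)).mapMatrix (F.mat σ) := by
  ext a b
  exact h σ a b

/-- The distinguished commutator entry of a lift of `ρbar` is a unit. -/
theorem isUnit_comm_entry {ρ : MatRep A} (h : ReducesTo F ρ) :
    IsUnit ((ρ.r F.g₀ * ρ.r F.g₁ - ρ.r F.g₁ * ρ.r F.g₀) F.i F.j) := by
  by_contra hnu
  have hmem : (ρ.r F.g₀ * ρ.r F.g₁ - ρ.r F.g₁ * ρ.r F.g₀) F.i F.j ∈ maximalIdeal A := hnu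
  rw [← residue_eq_zero_iff] at hmem
  have h1 : residue A ((ρ.r F.g₀ * ρ.r F.g₁ - ρ.r F.g₁ * ρ.r F.g₀) F.i F.j) =
      (residue A).mapMatrix (ρ.r F.g₀ * ρ.r F.g₁ - ρ.r F.g₁ * ρ.r F.g₀) F.i F.j := rfl
  rw [h1, map_sub, map_mul, map_mul, mapMatrix_residue_eq F h, mapMatrix_residue_eq F h,
    ← map_mul, ← map_mul, ← map_sub, RingHom.mapMatrix_apply, Matrix.map_apply,
    map_eq_zero] at hmem
  exact F.comm_ne hmem

/-- **Uniqueness of the rigid normal form**: equivalent rigid lifts are equal. -/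
theorem rigid_unique (habs : ρbar.IsAbsolutelyIrreducible)
    (hA : Function.Surjective (residue A ∘ algebraMap 𝒪 A)) {ρ ρ' : MatRep A}
    (h : IsRigid F ρ) (h' : IsRigid F ρ')
    (e : ρ.toGaloisRepAdic.IsEquiv ρ'.toGaloisRepAdic) : ρ = ρ' := by
  obtain ⟨g, hg⟩ := (Fermat.Agent.Lib.Helper6.dict_isEquiv_iff ρ ρ').mp e
  set X := (residue A).mapMatrix (g : M₂ A) with hXdef
  have hX : ∀ σ : GQ, X * (F.mat σ).map (ResidueField.map (algebraMap 𝒪 A)) =
      (F.mat σ).map (ResidueField.map (algebraMap 𝒪 A)) * X := by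
    intro σ
    have h1 := mapMatrix_residue_eq F h.reduces σ
    have h2 := mapMatrix_residue_eq F h'.reduces σ
    rw [RingHom.mapMatrix_apply] at h1 h2
    rw [← RingHom.mapMatrix_apply] at h1 h2
    have h3 := congrArg (residue A).mapMatrix (hg σ)
    rw [map_mul, map_mul] at h3
    calc X * (F.mat σ).map (ResidueField.map (algebraMap 𝒪 A))
        = X * (residue A).mapMatrix (ρ.r σ) := by rw [h1]; rfl
      _ = (residue A).mapMatrix (ρ'.r σ) * X := h3
      _ = (F.mat σ).map (ResidueField.map (algebraMap 𝒪 A)) * X := by rw [h2]; rfl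
  obtain ⟨c, hc⟩ := scalar_of_commute_mat_residue F habs hA X hX
  have hQ10 : (g : M₂ A) 1 0 ∈ maximalIdeal A := by
    rw [← residue_eq_zero_iff]
    have : residue A ((g : M₂ A) 1 0) = X 1 0 := rfl
    rw [this, hc]
    simp
  have hc0 : c ≠ 0 := by
    intro hc0
    have h4 := congrArg (residue A).mapMatrix g.mul_inv
    rw [map_mul, map_one, ← hXdef, hc, hc0, zero_smul, zero_mul] at h4
    have := congrFun (congrFun h4 0) 0
    simp at this
  have hQ00 : IsUnit ((g : M₂ A) 0 0) := by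
    by_contra hnu
    have hmem : (g : M₂ A) 0 0 ∈ maximalIdeal A := hnu
    rw [← residue_eq_zero_iff] at hmem
    have : residue A ((g : M₂ A) 0 0) = X 0 0 := rfl
    rw [this, hc] at hmem
    simp at hmem
    exact hc0 hmem
  have key := Fermat.Agent.Lib.Helper7.nf_unique ρ'.r ρ.r F.g₀ F.g₁ F.i F.j
    (algebraMap 𝒪 A F.c) ⟨h'.col_zero, h'.col_one, h'.entry⟩ ⟨h.col_zero, h.col_one, h.entry⟩
    (isUnit_comm_entry F h'.reduces) (g : M₂ A) hg hQ00 hQ10
  exact MatRep.ext fun σ => by rw [key.1]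

/-- **Existence of the rigid normal form** over a complete local test algebra. -/
theorem rigid_exists [IsAdicComplete (maximalIdeal A) A] (ρA : GaloisRepAdic A)
    (hres : ρA.residual.IsEquiv (ρbar.baseChangeAlong (ResidueField.map (algebraMap 𝒪 A)))) :
    ∃ ρ : MatRep A, IsRigid F ρ ∧ ρ.toGaloisRepAdic.IsEquiv ρA := by
  obtain ⟨ρ₀, hred, e₀⟩ := Fermat.Agent.Lib.Helper6.dict_exists_reducesTo F ρA hres
  have h00 : ρ₀.r F.g₀ 0 0 ∈ maximalIdeal A := by
    rw [← residue_eq_zero_iff, hred]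
    have : F.mat F.g₀ 0 0 = 0 := F.col_zero
    rw [this, map_zero]
  have h10 : ρ₀.r F.g₀ 1 0 - 1 ∈ maximalIdeal A := by
    rw [← residue_eq_zero_iff, map_sub, hred]
    have : F.mat F.g₀ 1 0 = 1 := F.col_one
    rw [this, map_one, map_one, sub_self]
  have hab : ρ₀.r F.g₁ F.i F.j - algebraMap 𝒪 A F.c ∈ maximalIdeal A := by
    rw [← residue_eq_zero_iff, map_sub, hred]
    have : F.mat F.g₁ F.i F.j = residue 𝒪 F.c := F.c_spec.symm
    rw [this, ResidueField.map_residue, sub_self]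
  obtain ⟨Q, hQ, hslice⟩ := Fermat.Agent.Lib.Helper7.nf_exists ρ₀.r F.g₀ F.g₁ F.i F.j
    (algebraMap 𝒪 A F.c) h00 h10 hab (isUnit_comm_entry F hred)
  have hconj : (ρ₀.conj Q).r = Fermat.Agent.Lib.Helper7.conjHom Q ρ₀.r :=
    MonoidHom.ext fun σ => rfl
  refine ⟨ρ₀.conj Q, ⟨fun σ a b => ?_, ?_, ?_, ?_⟩, ?_⟩
  · rw [← hred σ a b, ← sub_eq_zero, ← map_sub, residue_eq_zero_iff]
    have := Fermat.Agent.Lib.Helper7.entryMem_conj_sub Q hQ (ρ₀.r σ) a b
    rw [Matrix.sub_apply] at this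
    exact this
  · rw [hconj]; exact hslice.h00
  · rw [hconj]; exact hslice.h10
  · rw [hconj]; exact hslice.hab
  · exact isEquiv_trans (isEquiv_symm (Fermat.Agent.Lib.Helper6.dict_isEquiv_conj ρ₀ Q)) e₀

end RNF

section Discharge

variable {𝒪 : Type} [CommRing 𝒪] [IsLocalRing 𝒪]
variable {ρbar : ResidualGaloisRep (ResidueField 𝒪)} (F : Frame 𝒪 ρbar)

theorem hypC1 : HypC1 :=
  fun _ _ _ _ _ _ φ hφ ρ => Fermat.Agent.Lib.Helper6.dict_isEquiv_baseChange φ hφ ρ

theorem hypC4 : HypC4 F :=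
  fun _ _ _ _ _ ρ h => Fermat.Agent.Lib.Helper6.dict_residual_isEquiv F ρ h

theorem hypRNFExists : HypRNFExists F :=
  fun _ _ _ _ _ _ _ _ ρA hres => rigid_exists F ρA hres

theorem hypRNFUnique (habs : ρbar.IsAbsolutelyIrreducible) : HypRNFUnique F :=
  fun _ _ _ _ _ _ _ hA _ _ h h' e => rigid_unique F habs hA h h' e

end Discharge

section Final

variable {𝒪 : Type} [CommRing 𝒪] [IsDomain 𝒪] [IsDiscreteValuationRing 𝒪]
  [IsAdicComplete (maximalIdeal 𝒪) 𝒪]
variable {ρbar : ResidualGaloisRep (ResidueField 𝒪)}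
variable {𝒟 : ∀ ⦃A : Type⦄ [CommRing A] [IsLocalRing A] [Algebra 𝒪 A], GaloisRepAdic A → Prop}

/-- S53 is reduced to the construction of a `UnivData` (for one frame). -/
theorem nonempty_deformationRingData_of_univData' (F : Frame 𝒪 ρbar)
    (habs : ρbar.IsAbsolutelyIrreducible) (h𝒟 : IsDeformationCondition 𝒪 𝒟)
    (U : UnivData F 𝒟) : Nonempty (DeformationRingData 𝒪 ρbar 𝒟) :=
  nonempty_deformationRingData_of_univData F habs h𝒟 hypC1 (hypC4 F) (hypRNFExists F)
    (hypRNFUnique F habs) U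

end Final

end Fermat.Agent.Lib.Helper4.S53
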