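/-
S53, part (E2): from the pro-limit presentation `ProLimitData` (helper5) of the universal ring
to the `UnivData` consumed by the assembly (F)+(G).
-/
import Mathlib
import Fermat.Agent.Lib.S53.Defs
import Fermat.Agent.Lib.Helper5.ProLimitData
import Fermat.Agent.Lib.Helper9.S53U
import Fermat.Agent.Lib.Helper4.S53Assembly
import Fermat.Agent.Lib.Helper4.S53RNF

set_option autoImplicit false
set_option linter.unusedSectionVars false

namespace Fermat.Agent.Lib.Helper4.S53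

open IsLocalRing GaloisRep Fermat.Agent.Lib.S53 Fermat.Agent.Lib.Helper5

section Aux

theorem exists_pow_maximalIdeal_eq_bot (B : Type) [CommRing B] [IsLocalRing B]
    [IsArtinianRing B] : ∃ N : ℕ, maximalIdeal B ^ N = ⊥ :=
  (isArtinianRing_iff_isNilpotent_maximalIdeal B).mp inferInstance

/-- A local homomorphism into a local ring with nilpotent maximal ideal kills a power of the
maximal ideal. -/
theorem pow_maximalIdeal_le_ker {R B : Type} [CommRing R] [IsLocalRing R] [CommRing B]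
    [IsLocalRing B] (φ : R →+* B) (hφ : IsLocalHom φ) {N : ℕ} (hN : maximalIdeal B ^ N = ⊥) :
    maximalIdeal R ^ N ≤ RingHom.ker φ := by
  intro x hx
  rw [RingHom.mem_ker]
  have h1 : (maximalIdeal R).map φ ≤ maximalIdeal B := by
    rw [Ideal.map_le_iff_le_comap]
    intro a ha
    exact map_nonunit φ a ha
  have h2 : φ x ∈ (maximalIdeal R ^ N).map φ := Ideal.mem_map_of_mem _ hx
  rw [Ideal.map_pow] at h2
  have h3 := Ideal.pow_right_mono h1 N h2
  rw [hN] at h3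
  exact h3

end Aux

section Bridge

variable {𝒪 : Type} [CommRing 𝒪] [IsLocalRing 𝒪]
variable {ρbar : ResidualGaloisRep (ResidueField 𝒪)} {F : Frame 𝒪 ρbar}
variable {𝒟 : ∀ ⦃A : Type⦄ [CommRing A] [IsLocalRing A] [Algebra 𝒪 A], GaloisRepAdic A → Prop}
variable (D : ProLimitData 𝒪 (PolyRing 𝒪) {I | InU F 𝒟 I})

/-- The universal entries. -/
noncomputable def xi (σ : GQ) (a b : Fin 2) : D.R := D.ι (MvPolynomial.X (σ, a, b))

/-- The universal matrices. -/
noncomputable def xuMat (σ : GQ) : Matrix (Fin 2) (Fin 2) D.R := Matrix.of fun a b => xi D σ a b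

theorem xuMat_apply (σ : GQ) (a b : Fin 2) : xuMat D σ a b = xi D σ a b := rfl

/-- The image of the universal matrix in `P ⧸ I` is the tautological matrix. -/
theorem π_xuMat (I : Ideal (PolyRing 𝒪)) (hI : I ∈ {I | InU F 𝒟 I})
    [IsLocalRing (PolyRing 𝒪 ⧸ I)] (ρI : MatRep (PolyRing 𝒪 ⧸ I))
    (hent : ∀ σ a b, ρI.r σ a b = Ideal.Quotient.mk I (MvPolynomial.X (σ, a, b))) (σ : GQ) :
    (D.π I hI : D.R →+* PolyRing 𝒪 ⧸ I).mapMatrix (xuMat D σ) = ρI.r σ := by
  ext a b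
  rw [RingHom.mapMatrix_apply, Matrix.map_apply, xuMat_apply, xi, hent]
  exact D.π_ι I hI _

/-- An identity between universal matrices can be checked in every `P ⧸ I`. -/
theorem mat_ext_π {X Y : Matrix (Fin 2) (Fin 2) D.R}
    (h : ∀ (I : Ideal (PolyRing 𝒪)) (hI : I ∈ {I | InU F 𝒟 I}),
      (D.π I hI : D.R →+* PolyRing 𝒪 ⧸ I).mapMatrix X =
        (D.π I hI : D.R →+* PolyRing 𝒪 ⧸ I).mapMatrix Y) : X = Y := by
  ext a b
  apply D.ext_π
  intro I hI
  have := congrFun (congrFun (h I hI) a) b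
  simpa [RingHom.mapMatrix_apply, Matrix.map_apply] using this

/-- The universal matrices form a monoid homomorphism. -/
noncomputable def xuHom : GQ →* Matrix (Fin 2) (Fin 2) D.R where
  toFun := xuMat D
  map_one' := by
    apply mat_ext_π D
    intro I hI
    obtain ⟨hloc, hlh, hATA, ρI, hent, hrig, hD⟩ := hI
    rw [π_xuMat D I ⟨hloc, hlh, hATA, ρI, hent, hrig, hD⟩ ρI hent, map_one, map_one]
  map_mul' σ τ := by
    apply mat_ext_π D
    intro I hI
    obtain ⟨hloc, hlh, hATA, ρI, hent, hrig, hD⟩ := hI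
    rw [map_mul, π_xuMat D I ⟨hloc, hlh, hATA, ρI, hent, hrig, hD⟩ ρI hent,
      π_xuMat D I ⟨hloc, hlh, hATA, ρI, hent, hrig, hD⟩ ρI hent,
      π_xuMat D I ⟨hloc, hlh, hATA, ρI, hent, hrig, hD⟩ ρI hent, map_mul]

theorem xuHom_apply (σ : GQ) (a b : Fin 2) :
    xuHom D σ a b = D.ι (MvPolynomial.X (σ, a, b)) := rfl

/-- The universal matrix representation. -/
noncomputable def rhoU : MatRep D.R where
  r := xuHom D
  cont := by
    intro n
    obtain ⟨I, hI, hker⟩ := D.cofinal n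
    obtain ⟨hloc, hlh, hATA, ρI, hent, hrig, hD⟩ := id hI
    have := hATA.isArtinian
    obtain ⟨N, hN⟩ := exists_pow_maximalIdeal_eq_bot (PolyRing 𝒪 ⧸ I)
    obtain ⟨L, hL, hcont⟩ := ρI.cont N
    refine ⟨L, hL, fun σ hσ a b => hker ?_⟩
    rw [RingHom.mem_ker]
    have h1 := hcont σ hσ a b
    rw [hN, Ideal.mem_bot] at h1
    have h2 : (D.π I hI : D.R →+* PolyRing 𝒪 ⧸ I).mapMatrix (xuHom D σ - 1) = ρI.r σ - 1 := by
      rw [map_sub, map_one]
      congr 1
      exact π_xuMat D I hI ρI hent σ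
    have h3 := congrFun (congrFun h2 a) b
    rw [h1] at h3
    simpa [RingHom.mapMatrix_apply, Matrix.map_apply] using h3

theorem rhoU_r_apply (σ : GQ) (a b : Fin 2) :
    (rhoU D).r σ a b = D.ι (MvPolynomial.X (σ, a, b)) := rfl

/-- Factorisation through `π_I` of a map killing `ker π_I`. -/
theorem exists_factor (I : Ideal (PolyRing 𝒪)) (hI : I ∈ {I | InU F 𝒟 I}) {B : Type}
    [CommRing B] [Algebra 𝒪 B] (φ : D.R →ₐ[𝒪] B)
    (hker : RingHom.ker (D.π I hI) ≤ RingHom.ker φ) :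
    ∃ ψ : PolyRing 𝒪 ⧸ I →ₐ[𝒪] B, ∀ y, ψ (D.π I hI y) = φ y := by
  have h0 : ∀ x ∈ I, (φ.comp D.ι) x = 0 := by
    intro x hx
    rw [AlgHom.comp_apply, ← RingHom.mem_ker]
    apply hker
    rw [RingHom.mem_ker, D.π_ι I hI, Ideal.Quotient.eq_zero_iff_mem]
    exact hx
  refine ⟨Ideal.Quotient.liftₐ I (φ.comp D.ι) h0, fun y => ?_⟩
  obtain ⟨x, hx⟩ := Ideal.Quotient.mk_surjective (D.π I hI y)
  have h1 : y - D.ι x ∈ RingHom.ker φ := by
    apply hker
    rw [RingHom.mem_ker, map_sub, D.π_ι I hI, hx, sub_self]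
  rw [RingHom.mem_ker, map_sub, sub_eq_zero] at h1
  rw [← hx, h1]
  rfl

/-- Pushing the universal representation forward to an Artinian test algebra gives a rigid
lift of type `𝒟`. -/
theorem rhoU_map_spec (h𝒟 : IsDeformationCondition 𝒪 𝒟) {B : Type} [CommRing B] [IsLocalRing B]
    [Algebra 𝒪 B] [IsLocalHom (algebraMap 𝒪 B)] (hB : IsArtinianTestAlgebra 𝒪 B)
    (φ : D.R →ₐ[𝒪] B) (hφ : IsLocalHom (φ : D.R →+* B)) :
    IsRigid F ((rhoU D).map (φ : D.R →+* B) hφ) ∧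
      𝒟 ((rhoU D).map (φ : D.R →+* B) hφ).toGaloisRepAdic := by
  have := hB.isArtinian
  obtain ⟨N, hN⟩ := exists_pow_maximalIdeal_eq_bot B
  have hkerφ := pow_maximalIdeal_le_ker (φ : D.R →+* B) hφ hN
  obtain ⟨I, hI, hker⟩ := D.cofinal N
  obtain ⟨hloc, hlh, hATA, ρI, hent, hrig, hD⟩ := id hI
  obtain ⟨ψ, hψ⟩ := exists_factor D I hI φ (hker.trans hkerφ)
  have hψloc : IsLocalHom (ψ : PolyRing 𝒪 ⧸ I →+* B) :=
    isLocalHom_of_residue_surjective hB.residue_surjective ψ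
  have hmap : (rhoU D).map (φ : D.R →+* B) hφ = ρI.map (ψ : PolyRing 𝒪 ⧸ I →+* B) hψloc := by
    refine MatRep.ext fun σ => Matrix.ext fun a b => ?_
    rw [MatRep.map_r_apply, MatRep.map_r_apply, rhoU_r_apply, hent, ← D.π_ι I hI]
    exact (hψ _).symm
  rw [hmap]
  exact ⟨isRigid_map F ψ hψloc hrig,
    h𝒟.of_isEquiv hB (hypC1 (ψ : PolyRing 𝒪 ⧸ I →+* B) hψloc ρI)
      (h𝒟.baseChangeAlong hATA hB ψ hψloc hD)⟩

/-- Maps out of `R` into Artinian test algebras are determined by the universal entries. -/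
theorem algHom_ext_of_entries {B : Type} [CommRing B] [IsLocalRing B]
    [Algebra 𝒪 B] [IsLocalHom (algebraMap 𝒪 B)] (hB : IsArtinianTestAlgebra 𝒪 B)
    (φ φ' : D.R →ₐ[𝒪] B)
    (h : ∀ σ a b, φ ((rhoU D).r σ a b) = φ' ((rhoU D).r σ a b)) : φ = φ' := by
  have := hB.isArtinian
  obtain ⟨N, hN⟩ := exists_pow_maximalIdeal_eq_bot B
  have hloc : IsLocalHom (φ : D.R →+* B) :=
    isLocalHom_of_residue_surjective hB.residue_surjective φ
  have hloc' : IsLocalHom (φ' : D.R →+* B) :=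
    isLocalHom_of_residue_surjective hB.residue_surjective φ'
  have hk := pow_maximalIdeal_le_ker (φ : D.R →+* B) hloc hN
  have hk' := pow_maximalIdeal_le_ker (φ' : D.R →+* B) hloc' hN
  obtain ⟨I, hI, hker⟩ := D.cofinal N
  have hι : φ.comp D.ι = φ'.comp D.ι := by
    apply MvPolynomial.algHom_ext
    rintro ⟨σ, a, b⟩
    exact h σ a b
  apply AlgHom.ext
  intro y
  obtain ⟨x, hx⟩ := Ideal.Quotient.mk_surjective (D.π I hI y)
  have h1 : y - D.ι x ∈ RingHom.ker (D.π I hI) := by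
    rw [RingHom.mem_ker, map_sub, D.π_ι I hI, hx, sub_self]
  have h2 := hk (hker h1)
  have h3 := hk' (hker h1)
  rw [RingHom.mem_ker, map_sub, sub_eq_zero] at h2 h3
  have h4 : φ (D.ι x) = φ' (D.ι x) := congrArg (fun f => f x) hι
  calc φ y = φ (D.ι x) := h2
    _ = φ' (D.ι x) := h4
    _ = φ' y := h3.symm

/-- (E2) the bridge from the pro-limit presentation to `UnivData`. -/
noncomputable def univDataOfProLimitData (h𝒟 : IsDeformationCondition 𝒪 𝒟)
    (hkerU : ∀ ⦃B : Type⦄ [CommRing B] [IsLocalRing B] [Algebra 𝒪 B]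
      [IsLocalHom (algebraMap 𝒪 B)], IsArtinianTestAlgebra 𝒪 B → ∀ ρ : MatRep B, IsRigid F ρ →
        𝒟 ρ.toGaloisRepAdic → InU F 𝒟 (RingHom.ker (evalHom (𝒪 := 𝒪) ρ))) :
    UnivData F 𝒟 where
  R := D.R
  residue_surjective := D.residue_surjective
  ρu := rhoU D
  rep_map := fun B _ _ _ _ hB φ hφ _ => rhoU_map_spec D h𝒟 hB φ hφ
  rep_bij := by
    intro B _ _ _ _ hB ρ hρ hD
    have hI := hkerU hB ρ hρ hD
    refine ⟨(Ideal.Quotient.liftₐ (RingHom.ker (evalHom (𝒪 := 𝒪) ρ)) (evalHom (𝒪 := 𝒪) ρ)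
      (fun x hx => hx)).comp (D.π _ hI), ?_, ?_⟩
    · intro σ a b
      rw [AlgHom.comp_apply, rhoU_r_apply, D.π_ι _ hI]
      show evalHom (𝒪 := 𝒪) ρ (MvPolynomial.X (σ, a, b)) = ρ.r σ a b
      unfold evalHom
      rw [MvPolynomial.aeval_X]
    · intro φ' hφ'
      refine algHom_ext_of_entries D hB _ _ fun σ a b => ?_
      rw [hφ' σ a b, AlgHom.comp_apply, rhoU_r_apply, D.π_ι _ hI]
      show ρ.r σ a b = evalHom (𝒪 := 𝒪) ρ (MvPolynomial.X (σ, a, b))
      unfold evalHom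
      rw [MvPolynomial.aeval_X]

/-- (E2), with helper9's `ker_evalHom_inU` plugged in. -/
noncomputable def univDataOfProLimitData' [Finite (ResidueField 𝒪)]
    (h𝒟 : IsDeformationCondition 𝒪 𝒟) : UnivData F 𝒟 :=
  univDataOfProLimitData D h𝒟 fun _ _ _ _ _ hB ρ hρ hD => ker_evalHom_inU h𝒟 hB ρ hρ hD

end Bridge

section Final

variable {𝒪 : Type} [CommRing 𝒪] [IsDomain 𝒪] [IsDiscreteValuationRing 𝒪]
  [IsAdicComplete (maximalIdeal 𝒪) 𝒪] [Finite (ResidueField 𝒪)]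
variable {ρbar : ResidualGaloisRep (ResidueField 𝒪)}
variable {𝒟 : ∀ ⦃A : Type⦄ [CommRing A] [IsLocalRing A] [Algebra 𝒪 A], GaloisRepAdic A → Prop}

/-- S53 is reduced to the existence of a `ProLimitData` for the family `U` (for one frame). -/
theorem nonempty_deformationRingData_of_proLimitData (F : Frame 𝒪 ρbar)
    (habs : ρbar.IsAbsolutelyIrreducible) (h𝒟 : IsDeformationCondition 𝒪 𝒟)
    (D : ProLimitData 𝒪 (PolyRing 𝒪) {I | InU F 𝒟 I}) :
    Nonempty (DeformationRingData 𝒪 ρbar 𝒟) :=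
  nonempty_deformationRingData_of_univData' F habs h𝒟 (univDataOfProLimitData' D h𝒟)

end Final

end Fermat.Agent.Lib.Helper4.S53
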